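import Fermat.Prelude.Def_FLTPrelim_FreyPackage
import Fermat.Prelude.Def_FLTPrelim_Modularity
import Fermat.Prelude.Def_FLTPrelim_ModularRep
import Fermat.Agent.ECP.FreyLocal

/-!
Facts about the integral model `P.freyCurveInt` of the Frey curve.
-/

set_option autoImplicit false

namespace Fermat.Agent.Final

open WeierstrassCurve

variable (P : FreyPackage)

lemma four_mul_a₂ : 4 * P.freyCurveInt.a₂ = P.b ^ P.p - 1 - P.a ^ P.p := by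
  have h := ECP.frey_four_dvd (P := P)
  exact Int.mul_ediv_cancel' h

lemma sixteen_dvd : (16 : ℤ) ∣ -(P.a ^ P.p) * (P.b ^ P.p) := by
  have h := ECP.frey_dvd_b_pow (P := P)
  exact Dvd.dvd.mul_left (dvd_trans (by norm_num) h) _

lemma sixteen_mul_a₄ : 16 * P.freyCurveInt.a₄ = -(P.a ^ P.p) * (P.b ^ P.p) :=
  Int.mul_ediv_cancel' (sixteen_dvd P)

lemma a₁_eq : P.freyCurveInt.a₁ = 1 := rfl
lemma a₃_eq : P.freyCurveInt.a₃ = 0 := rfl
lemma a₆_eq : P.freyCurveInt.a₆ = 0 := rfl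

lemma c₄_eq : P.freyCurveInt.c₄ = (P.a ^ P.p) ^ 2 + P.a ^ P.p * P.b ^ P.p + (P.b ^ P.p) ^ 2 := by
  have h2 := four_mul_a₂ P
  have h4 := sixteen_mul_a₄ P
  have hb2 : P.freyCurveInt.b₂ = P.b ^ P.p - P.a ^ P.p := by
    rw [WeierstrassCurve.b₂, a₁_eq]; linarith
  have hb4 : 8 * P.freyCurveInt.b₄ = -(P.a ^ P.p) * (P.b ^ P.p) := by
    rw [WeierstrassCurve.b₄, a₁_eq, a₃_eq]; linarith
  rw [WeierstrassCurve.c₄, hb2]
  nlinarith

lemma Δ_eq : 256 * P.freyCurveInt.Δ = (P.a ^ P.p * P.b ^ P.p * P.c ^ P.p) ^ 2 := by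
  have h2 := four_mul_a₂ P
  have h4 := sixteen_mul_a₄ P
  have hb2 : P.freyCurveInt.b₂ = P.b ^ P.p - P.a ^ P.p := by
    rw [WeierstrassCurve.b₂, a₁_eq]; linarith
  have hb4 : P.freyCurveInt.b₄ = 2 * P.freyCurveInt.a₄ := by
    rw [WeierstrassCurve.b₄, a₁_eq, a₃_eq]; ring
  have hb6 : P.freyCurveInt.b₆ = 0 := by
    rw [WeierstrassCurve.b₆, a₃_eq, a₆_eq]; ring
  have hb8 : P.freyCurveInt.b₈ = -P.freyCurveInt.a₄ ^ 2 := by
    rw [WeierstrassCurve.b₈, a₁_eq, a₃_eq, a₆_eq]; ring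
  have hc := P.hFLT
  rw [WeierstrassCurve.Δ, hb2, hb4, hb6, hb8, ← hc]
  generalize P.a ^ P.p = A at *
  generalize P.b ^ P.p = B at *
  have e1 : 256 * P.freyCurveInt.a₄ ^ 2 = (A * B) ^ 2 := by
    have : (16 * P.freyCurveInt.a₄) ^ 2 = (A * B) ^ 2 := by rw [h4]; ring
    linarith [this]
  generalize P.freyCurveInt.a₄ = x at *
  linear_combination ((B - A) ^ 2 - 64 * x) * e1 + (-4) * (A * B) ^ 2 * h4

lemma Δ_ne_zero : P.freyCurveInt.Δ ≠ 0 := by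
  intro h
  have := Δ_eq P
  rw [h, mul_zero] at this
  have h0 : P.a ^ P.p * P.b ^ P.p * P.c ^ P.p ≠ 0 :=
    mul_ne_zero (mul_ne_zero (pow_ne_zero _ P.ha0) (pow_ne_zero _ P.hb0)) (pow_ne_zero _ P.hc0)
  exact pow_ne_zero 2 h0 this.symm

lemma map_eq : P.freyCurveInt.map (Int.castRingHom ℚ) = P.freyCurve := by
  have h2 : (4 : ℚ) * (P.freyCurveInt.a₂ : ℚ) = (P.b : ℚ) ^ P.p - 1 - (P.a : ℚ) ^ P.p := by
    exact_mod_cast congrArg (Int.cast : ℤ → ℚ) (four_mul_a₂ P)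
  have h4 : (16 : ℚ) * (P.freyCurveInt.a₄ : ℚ) = -((P.a : ℚ) ^ P.p) * (P.b : ℚ) ^ P.p := by
    exact_mod_cast congrArg (Int.cast : ℤ → ℚ) (sixteen_mul_a₄ P)
  ext
  · simp [FreyPackage.freyCurve, a₁_eq]
  · simp only [WeierstrassCurve.map_a₂, eq_intCast, FreyPackage.freyCurve]
    linarith
  · simp [FreyPackage.freyCurve, a₃_eq]
  · simp only [WeierstrassCurve.map_a₄, eq_intCast, FreyPackage.freyCurve]
    linarith
  · simp [FreyPackage.freyCurve, a₆_eq]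

lemma isIntegralModelOf : P.freyCurveInt.IsIntegralModelOf P.freyCurve :=
  ⟨1, by rw [one_smul, map_eq]⟩

lemma isSemistableModel : P.freyCurveInt.IsSemistableModel := by
  intro q hq hqΔ hqc
  have hqp : Prime (q : ℤ) := Nat.prime_iff_prime_int.mp hq
  have h1 : (q : ℤ) ∣ P.a ^ P.p * P.b ^ P.p * P.c ^ P.p := by
    have h : (q : ℤ) ∣ (P.a ^ P.p * P.b ^ P.p * P.c ^ P.p) ^ 2 := by
      rw [← Δ_eq]; exact Dvd.dvd.mul_left hqΔ _
    exact hqp.dvd_of_dvd_pow h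
  rw [c₄_eq] at hqc
  have hab : ¬ ((q : ℤ) ∣ P.a ∧ (q : ℤ) ∣ P.b) := by
    rintro ⟨ha, hb⟩
    have := dvd_gcd ha hb
    rw [P.hgcdab] at this
    exact hqp.not_isUnit (isUnit_of_dvd_one this)
  have key : ∀ u w : ℤ, (q : ℤ) ∣ u → (q : ℤ) ∣ u ^ 2 + u * w + w ^ 2 → (q : ℤ) ∣ w := by
    intro u w hu h
    have : (q : ℤ) ∣ w ^ 2 := by
      have h2 : (q : ℤ) ∣ u ^ 2 + u * w := by
        have : u ^ 2 + u * w = u * (u + w) := by ring
        rw [this]; exact Dvd.dvd.mul_right hu _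
      exact (dvd_add_right h2).mp h
    exact hqp.dvd_of_dvd_pow this
  rcases hqp.dvd_or_dvd h1 with h | h
  · rcases hqp.dvd_or_dvd h with h | h
    · exact hab ⟨hqp.dvd_of_dvd_pow h, hqp.dvd_of_dvd_pow (key _ _ h hqc)⟩
    · refine hab ⟨hqp.dvd_of_dvd_pow (key (P.b ^ P.p) (P.a ^ P.p) h ?_), hqp.dvd_of_dvd_pow h⟩
      have : (P.b ^ P.p) ^ 2 + P.b ^ P.p * P.a ^ P.p + (P.a ^ P.p) ^ 2 =
        (P.a ^ P.p) ^ 2 + P.a ^ P.p * P.b ^ P.p + (P.b ^ P.p) ^ 2 := by ring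
      rw [this]; exact hqc
  · -- q ∣ c
    rw [← P.hFLT] at h
    have h3 : (q : ℤ) ∣ P.a ^ P.p * P.b ^ P.p := by
      have e : P.a ^ P.p * P.b ^ P.p = (P.a ^ P.p + P.b ^ P.p) ^ 2 -
        ((P.a ^ P.p) ^ 2 + P.a ^ P.p * P.b ^ P.p + (P.b ^ P.p) ^ 2) := by ring
      rw [e]; exact dvd_sub (Dvd.dvd.pow h (by norm_num)) hqc
    rcases hqp.dvd_or_dvd h3 with h | h
    · exact hab ⟨hqp.dvd_of_dvd_pow h, hqp.dvd_of_dvd_pow (key _ _ h hqc)⟩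
    · refine hab ⟨hqp.dvd_of_dvd_pow (key (P.b ^ P.p) (P.a ^ P.p) h ?_), hqp.dvd_of_dvd_pow h⟩
      have : (P.b ^ P.p) ^ 2 + P.b ^ P.p * P.a ^ P.p + (P.a ^ P.p) ^ 2 =
        (P.a ^ P.p) ^ 2 + P.a ^ P.p * P.b ^ P.p + (P.b ^ P.p) ^ 2 := by ring
      rw [this]; exact hqc

lemma two_dvd_Δ : (2 : ℤ) ∣ P.freyCurveInt.Δ := by
  have h := Δ_eq P
  have h32 := ECP.frey_dvd_b_pow (P := P)
  obtain ⟨k, hk⟩ := h32
  rw [hk] at h
  have : 256 * P.freyCurveInt.Δ = 256 * (2 * (2 * (P.a ^ P.p * k * P.c ^ P.p) ^ 2)) := by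
    rw [h]; ring
  exact ⟨_, mul_left_cancel₀ (by norm_num) this⟩

lemma dvd_padicValInt {q : ℕ} (hq : q.Prime) (hq2 : q ≠ 2) :
    P.p ∣ padicValInt q P.freyCurveInt.Δ := by
  have := Fact.mk hq
  have h := congrArg (padicValInt q) (Δ_eq P)
  rw [padicValInt.mul (by norm_num) (Δ_ne_zero P)] at h
  have h256 : padicValInt q 256 = 0 := by
    refine padicValInt.eq_zero_of_not_dvd ?_
    intro hd
    have hqp : Prime (q : ℤ) := Nat.prime_iff_prime_int.mp hq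
    have : (q : ℤ) ∣ 2 ^ 8 := by norm_num; exact hd
    have h2 := hqp.dvd_of_dvd_pow this
    have h3 : q ∣ 2 := by exact_mod_cast h2
    exact hq2 ((Nat.prime_dvd_prime_iff_eq hq Nat.prime_two).mp h3)
  rw [h256, zero_add] at h
  rw [h]
  have e : (P.a ^ P.p * P.b ^ P.p * P.c ^ P.p) ^ 2 = ((P.a * P.b * P.c) ^ 2) ^ P.p := by ring
  rw [e, padicValInt, Int.natAbs_pow,
    padicValNat.pow]
  exact dvd_mul_right _ _

lemma not_dvd_padicValInt_two : ¬ P.p ∣ padicValInt 2 P.freyCurveInt.Δ := by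
  intro hd
  have h := congrArg (padicValInt 2) (Δ_eq P)
  rw [padicValInt.mul (by norm_num) (Δ_ne_zero P)] at h
  have h256 : padicValInt 2 256 = 8 := by
    have : (256 : ℤ) = ((2 ^ 8 : ℕ) : ℤ) := by norm_num
    rw [this, padicValInt.of_nat, padicValNat.prime_pow]
  have e : (P.a ^ P.p * P.b ^ P.p * P.c ^ P.p) ^ 2 = ((P.a * P.b * P.c) ^ 2) ^ P.p := by ring
  have h3 : P.p ∣ padicValInt 2 (((P.a * P.b * P.c) ^ 2) ^ P.p) := by
    rw [padicValInt, Int.natAbs_pow, padicValNat.pow]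
    exact dvd_mul_right _ _
  rw [h256, e] at h
  have h8 : P.p ∣ 8 := (Nat.dvd_add_left hd).mp (h ▸ h3)
  have h5 := P.hp5
  have h2 : P.p ∣ 2 := P.pp.dvd_of_dvd_pow (show P.p ∣ 2 ^ 3 by norm_num; exact h8)
  have := Nat.le_of_dvd (by norm_num) h2
  omega

end Fermat.Agent.Final
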