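import Fermat.Agent.S52_asm.Assembly
import Fermat.Agent.S52.Vec
import Fermat.Agent.S52.I3

/-!
Strengthening of the 3-5 switch: `W.Δ ∣ W'.Δ` (so multiplicative reduction at `2` is kept).
Adapted from `S52_asm/Assembly.lean` (helper8, helper11).
-/

set_option autoImplicit false

namespace Fermat.Agent.S52A

open WeierstrassCurve Fermat.Agent.S52

theorem switch_dvd (I2 : FormsCoprime) (I3 : FormsCount) (W : WeierstrassCurve ℤ) (hΔ : W.Δ ≠ 0)
    (hW : W.IsSemistableModel) (B : ℕ) (hB : B ≠ 0) :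
    ∃ W' : WeierstrassCurve ℤ, W'.Δ ≠ 0 ∧ W.Δ ∣ W'.Δ ∧ padicValInt 2 W'.Δ = padicValInt 2 W.Δ ∧
      (∀ q : ℕ, q.Prime → q ∣ B → (q : ℤ) ∣ W'.Δ → (q : ℤ) ∣ W.Δ) ∧ W'.IsSemistableModel ∧
      W'.ModRepIsIrreducible 3 ∧
      ∀ ℓ : ℕ, ℓ.Prime → W.IsGoodPrimeFor ℓ → W'.IsGoodPrimeFor ℓ → ℓ ≠ 5 →
        (5 : ℤ) ∣ (W'.apOfModel ℓ - W.apOfModel ℓ) := by
  set a := W.c₄ with ha
  set b := W.c₆ with hb
  have hrel : 1728 * W.Δ = a ^ 3 - b ^ 2 := W.c_relation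
  have hab : a ^ 3 ≠ b ^ 2 := by
    intro h
    apply hΔ
    have : 1728 * W.Δ = 0 := by rw [hrel, h]; ring
    rcases mul_eq_zero.mp this with h1 | h1
    · norm_num at h1
    · exact h1
  obtain ⟨s₀, hs⟩ := exists_no_root I2 a b hab (1728 * (30 * W.Δ) * B) (by
    exact mul_ne_zero (mul_ne_zero (by norm_num) (mul_ne_zero (by norm_num) hΔ))
      (by exact_mod_cast hB))
  set s : ℤ := B * s₀ with hsdef
  set w : ℤ := 30 * W.Δ * s with hw
  have ht : 1728 * (30 * W.Δ) * B * s₀ = 1728 * w := by rw [hw, hsdef]; ring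
  rw [ht] at hs
  set t : ℤ := 1728 * w with htdef
  obtain ⟨u4, hu4⟩ := dvd_C4p_sub a b t
  obtain ⟨u6, hu6⟩ := dvd_C6p_sub a b t
  obtain ⟨v, hv⟩ := dvd_Dp_sub a b t
  set W' := model W w u4 u6 with hW'
  have hc4 : W'.c₄ = C4p a b t := by
    rw [hW', model_c4, hu4]
  have hc6 : W'.c₆ = C6p a b t := by
    rw [hW', model_c6, hu6]
  have hΔ' : W'.Δ = W.Δ * Dp a b t ^ 5 := by
    have h1 : 1728 * W'.Δ = W'.c₄ ^ 3 - W'.c₆ ^ 2 := W'.c_relation
    rw [hc4, hc6, forms_rel, ← hrel] at h1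
    have h2 : 1728 * (W'.Δ - W.Δ * Dp a b t ^ 5) = 0 := by linear_combination h1
    rcases mul_eq_zero.mp h2 with h3 | h3
    · norm_num at h3
    · exact sub_eq_zero.mp h3
  have h30t : ∀ p : ℕ, (p : ℤ) ∣ 30 * W.Δ → (p : ℤ) ∣ w := fun p hp => Dvd.dvd.mul_right hp s
  have hDp_not : ∀ p : ℕ, p.Prime → (p : ℤ) ∣ w → ¬ (p : ℤ) ∣ Dp a b t := by
    intro p hp hpw hd
    rw [hv] at hd
    have h1 : (p : ℤ) ∣ t * v := Dvd.dvd.mul_right (Dvd.dvd.mul_left hpw _) _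
    have h2 : (p : ℤ) ∣ 1 := (dvd_add_left h1).mp hd
    exact hp.one_lt.ne' (by exact_mod_cast Int.eq_one_of_dvd_one (by positivity) h2)
  have hDp0 : Dp a b t ≠ 0 := by
    intro h0
    have h5 := hDp_not 2 Nat.prime_two (h30t 2 ⟨15 * W.Δ, by push_cast; ring⟩)
    rw [h0] at h5
    exact h5 (dvd_zero _)
  have hΔ'0 : W'.Δ ≠ 0 := by
    rw [hΔ']; exact mul_ne_zero hΔ (pow_ne_zero _ hDp0)
  have hcast : ∀ (p : ℕ), ((a ^ 3 - b ^ 2 : ℤ) : ZMod p) = (a : ZMod p) ^ 3 - (b : ZMod p) ^ 2 := by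
    intro p; push_cast; ring
  -- primes not dividing `30 Δ`
  have hbig : ∀ p : ℕ, p.Prime → ¬ (p : ℤ) ∣ 30 * W.Δ →
      (¬ p ∣ 30) ∧ (a : ZMod p) ^ 3 ≠ (b : ZMod p) ^ 2 := by
    intro p hp hpn
    have h30 : ¬ p ∣ 30 := by
      intro h
      exact hpn (Dvd.dvd.mul_right (by exact_mod_cast h) _)
    refine ⟨h30, ?_⟩
    intro h
    have h1 : ((a ^ 3 - b ^ 2 : ℤ) : ZMod p) = 0 := by rw [hcast, h, sub_self]
    rw [← hrel, ZMod.intCast_zmod_eq_zero_iff_dvd] at h1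
    rcases (Nat.prime_iff_prime_int.mp hp).dvd_or_dvd h1 with h2 | h2
    · have h3 : p ∣ 1728 := by exact_mod_cast h2
      have h4 : (1728 : ℕ) = 2 ^ 6 * 3 ^ 3 := by norm_num
      rw [h4] at h3
      rcases (hp.dvd_mul).mp h3 with h5 | h5
      · exact h30 ((hp.dvd_of_dvd_pow h5).trans (by norm_num))
      · exact h30 ((hp.dvd_of_dvd_pow h5).trans (by norm_num))
    · exact hpn (Dvd.dvd.mul_left h2 _)
  have hBgood : ∀ q : ℕ, q.Prime → q ∣ B → (q : ℤ) ∣ W'.Δ → (q : ℤ) ∣ W.Δ := by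
    intro q hq hqB hd
    have hqw : (q : ℤ) ∣ w := by
      rw [hw, hsdef]
      exact Dvd.dvd.mul_left (Dvd.dvd.mul_right (by exact_mod_cast hqB) _) _
    rw [hΔ'] at hd
    rcases (Nat.prime_iff_prime_int.mp hq).dvd_or_dvd hd with h1 | h1
    · exact h1
    · exact absurd ((Nat.prime_iff_prime_int.mp hq).dvd_of_dvd_pow h1) (hDp_not q hq hqw)
  have hval2 : padicValInt 2 W'.Δ = padicValInt 2 W.Δ := by
    have h5 := hDp_not 2 Nat.prime_two (h30t 2 ⟨15 * W.Δ, by push_cast; ring⟩)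
    rw [hΔ', padicValInt.mul hΔ (pow_ne_zero _ hDp0)]
    have h6 : padicValInt 2 (Dp a b t ^ 5) = 0 := by
      refine padicValInt.eq_zero_of_not_dvd ?_
      intro h7
      exact h5 (Int.prime_two.dvd_of_dvd_pow (by exact_mod_cast h7))
    rw [h6, add_zero]
  refine ⟨W', hΔ'0, ⟨_, hΔ'⟩, hval2, hBgood, ?_, ?_, ?_⟩
  · -- semistability
    intro p hp hd
    rw [hc4]
    rw [hΔ'] at hd
    by_cases h30 : (p : ℤ) ∣ 30 * W.Δ
    · have hpw := h30t p h30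
      rcases (Nat.prime_iff_prime_int.mp hp).dvd_or_dvd hd with h1 | h1
      · intro h2
        apply hW p hp h1
        rw [hu4] at h2
        exact (dvd_add_left (Dvd.dvd.mul_right (Dvd.dvd.mul_left hpw _) _)).mp h2
      · exact absurd ((Nat.prime_iff_prime_int.mp hp).dvd_of_dvd_pow h1) (hDp_not p hp hpw)
    · obtain ⟨h1, h2⟩ := hbig p hp h30
      have hpD : ¬ (p : ℤ) ∣ W.Δ := fun h => h30 (Dvd.dvd.mul_left h _)
      have h3 : (p : ℤ) ∣ Dp a b t :=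
        (Nat.prime_iff_prime_int.mp hp).dvd_of_dvd_pow
          (((Nat.prime_iff_prime_int.mp hp).dvd_or_dvd hd).resolve_left hpD)
      have : Fact p.Prime := ⟨hp⟩
      intro h4
      rw [← ZMod.intCast_zmod_eq_zero_iff_dvd] at h3 h4
      have e1 := map_Dp (Int.castRingHom (ZMod p)) a b t
      have e2 := map_C4p (Int.castRingHom (ZMod p)) a b t
      simp only [eq_intCast] at e1 e2
      rw [h3] at e1
      rw [h4] at e2
      refine I2 (ZMod p) (a : ZMod p) (b : ZMod p) (t : ZMod p) ?_ h2 e1.symm e2.symm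
      intro h5
      apply h1
      have h6 : ((30 : ℕ) : ZMod p) = 0 := by exact_mod_cast h5
      exact (ZMod.natCast_eq_zero_iff _ _).mp h6
  · -- irreducibility
    by_contra hirr
    have hΔQ : (W'.map (Int.castRingHom ℚ)).Δ ≠ 0 := by
      rw [map_Δ]
      simpa using hΔ'0
    obtain ⟨q, hq⟩ := S51.Galois.three (E := W'.map (Int.castRingHom ℚ)) hΔQ hirr
    obtain ⟨x, hx⟩ := root_of_P3 W' q hq
    rw [hc4, hc6] at hx
    exact hs x hx
  · intro ℓ hℓ hg hg' h5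
    have : Fact ℓ.Prime := ⟨hℓ⟩
    by_cases h30 : (ℓ : ℤ) ∣ 30 * W.Δ
    · have : W'.apOfModel ℓ = W.apOfModel ℓ := by
        unfold WeierstrassCurve.apOfModel
        rw [hW', model_reduction W w u4 u6 ℓ (h30t ℓ h30)]
      rw [this, sub_self]
      exact dvd_zero _
    · obtain ⟨h1, h2⟩ := hbig ℓ hℓ h30
      have hDp : Dp (a : ZMod ℓ) (b : ZMod ℓ) (t : ZMod ℓ) ≠ 0 := by
        have e1 := map_Dp (Int.castRingHom (ZMod ℓ)) a b t
        simp only [eq_intCast] at e1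
        rw [← e1, Ne, ZMod.intCast_zmod_eq_zero_iff_dvd]
        intro h3
        apply hg'
        rw [hΔ']
        exact Dvd.dvd.mul_left (h3.trans (dvd_pow_self _ (by norm_num))) _
      have h3 := I3 ℓ (a : ZMod ℓ) (b : ZMod ℓ) (t : ZMod ℓ) h1 h2 hDp
      have h2' : (2 : ZMod ℓ) ≠ 0 := by
        intro h
        have h6 : ((2 : ℕ) : ZMod ℓ) = 0 := by exact_mod_cast h
        exact h1 (((ZMod.natCast_eq_zero_iff _ _).mp h6).trans (by norm_num))
      have h3' : (3 : ZMod ℓ) ≠ 0 := by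
        intro h
        have h6 : ((3 : ℕ) : ZMod ℓ) = 0 := by exact_mod_cast h
        exact h1 (((ZMod.natCast_eq_zero_iff _ _).mp h6).trans (by norm_num))
      have hc1 : Nat.card (W.reductionMod ℓ).toAffine.Point
          = Nat.card (shortE (a : ZMod ℓ) (b : ZMod ℓ)).toAffine.Point := by
        have hΔℓ : (W.reductionMod ℓ).Δ ≠ 0 := by
          rw [reductionMod, map_Δ, eq_intCast, Ne, ZMod.intCast_zmod_eq_zero_iff_dvd]
          exact hg
        rw [card_short (W.reductionMod ℓ) h2' h3' hΔℓ]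
        simp only [reductionMod, map_c₄, map_c₆, eq_intCast, ← ha, ← hb]
      have hc2 : Nat.card (W'.reductionMod ℓ).toAffine.Point
          = Nat.card (shortE (C4p (a : ZMod ℓ) (b : ZMod ℓ) (t : ZMod ℓ))
              (C6p (a : ZMod ℓ) (b : ZMod ℓ) (t : ZMod ℓ))).toAffine.Point := by
        have hΔℓ : (W'.reductionMod ℓ).Δ ≠ 0 := by
          rw [reductionMod, map_Δ, eq_intCast, Ne, ZMod.intCast_zmod_eq_zero_iff_dvd]
          exact hg'
        rw [card_short (W'.reductionMod ℓ) h2' h3' hΔℓ]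
        have e1 := map_C4p (Int.castRingHom (ZMod ℓ)) a b t
        have e2 := map_C6p (Int.castRingHom (ZMod ℓ)) a b t
        simp only [eq_intCast] at e1 e2
        simp only [reductionMod, map_c₄, map_c₆, eq_intCast, hc4, hc6, e1, e2]
      have hfin : W'.apOfModel ℓ - W.apOfModel ℓ
          = (Nat.card (shortE (a : ZMod ℓ) (b : ZMod ℓ)).toAffine.Point : ℤ)
            - (Nat.card (shortE (C4p (a : ZMod ℓ) (b : ZMod ℓ) (t : ZMod ℓ))
              (C6p (a : ZMod ℓ) (b : ZMod ℓ) (t : ZMod ℓ))).toAffine.Point : ℤ) := by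
        simp only [WeierstrassCurve.apOfModel, WeierstrassCurve.traceOfFrobenius,
          WeierstrassCurve.card, hc1, hc2]
        ring
      rw [hfin]
      exact h3


theorem switch_even (W : WeierstrassCurve ℤ) (hΔ : W.Δ ≠ 0) (hW : W.IsSemistableModel)
    (B : ℕ) (hB : B ≠ 0) :
    ∃ W' : WeierstrassCurve ℤ, W'.Δ ≠ 0 ∧ W.Δ ∣ W'.Δ ∧ padicValInt 2 W'.Δ = padicValInt 2 W.Δ ∧
      (∀ q : ℕ, q.Prime → q ∣ B → (q : ℤ) ∣ W'.Δ → (q : ℤ) ∣ W.Δ) ∧ W'.IsSemistableModel ∧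
      W'.ModRepIsIrreducible 3 ∧
      ∀ ℓ : ℕ, ℓ.Prime → W.IsGoodPrimeFor ℓ → W'.IsGoodPrimeFor ℓ → ℓ ≠ 5 →
        (5 : ℤ) ∣ (W'.apOfModel ℓ - W.apOfModel ℓ) :=
  switch_dvd (fun K _ a b t h30 hab hD => I2 h30 hab hD)
    (fun l _ a b t h30 hab hD => I3 h30 hab hD) W hΔ hW B hB

end Fermat.Agent.S52A
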