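import Fermat.Statements.S03
import Fermat.Statements.S07
import Fermat.Statements.S09
import Fermat.Agent.Final.Frey
import Fermat.Agent.S07
import Fermat.Agent.S08
import Fermat.Agent.Final.Switch
import Fermat.Agent.KummerFLT.Small
import Fermat.Agent.X20.Main

/-!
Final wiring: `S03` from the internal forms of the main inputs (squarefree even levels only).
-/

set_option autoImplicit false

namespace Fermat.Agent.Final

open WeierstrassCurve CuspForm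

/-- Semistable model with multiplicative reduction at `2`. -/
structure SS2 (W : WeierstrassCurve ℤ) : Prop where
  Δ0 : W.Δ ≠ 0
  ss : W.IsSemistableModel
  two : (2 : ℤ) ∣ W.Δ

/-- Squarefree even level. -/
def EvenLevel (N : ℕ) : Prop := Squarefree N ∧ 2 ∣ N

/-- The prime factors of `N` dividing `B` are bad primes of `W`. -/
def Ctrl (W : WeierstrassCurve ℤ) (B N : ℕ) : Prop :=
  ∀ q : ℕ, q.Prime → q ∣ B → q ∣ N → (q : ℤ) ∣ W.Δ

/-- All bad primes of `W` divide `N`. -/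
def BadDvd (W : WeierstrassCurve ℤ) (N : ℕ) : Prop := ∀ ℓ : ℕ, ℓ.Prime → (ℓ : ℤ) ∣ W.Δ → ℓ ∣ N

/-- THEOREM Z output: residual modularity at `3`, with control of the level at the primes
dividing `B`. -/
def ZThm3 : Prop := ∀ W : WeierstrassCurve ℤ, SS2 W → W.ModRepIsIrreducible 3 →
  ∀ B : ℕ, B ≠ 0 → ∃ N : ℕ, EvenLevel N ∧ Ctrl W B N ∧ W.IsResiduallyModularOfLevel 3 N

/-- R = T output (modularity lifting) at the prime `p`: the level `N₀` is prime to `p` if `W` has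
good reduction at `p`. -/
def Lifting (p : ℕ) : Prop := ∀ W : WeierstrassCurve ℤ, SS2 W → W.ModRepIsIrreducible p →
  ∀ N₀ : ℕ, EvenLevel N₀ → (p ∣ N₀ → (p : ℤ) ∣ W.Δ) → W.IsResiduallyModularOfLevel p N₀ →
    ∃ N : ℕ, EvenLevel N ∧ BadDvd W N ∧
      (∀ q : ℕ, q.Prime → q ∣ N → q ∣ N₀ ∨ (q : ℤ) ∣ W.Δ) ∧ W.IsModularModelOfLevel N

/-- R = T output at the prime `3`: only needed when `3 ∤ v₂(Δ)`. -/
def Lifting3 : Prop := ∀ W : WeierstrassCurve ℤ, SS2 W → W.ModRepIsIrreducible 3 →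
  ¬ 3 ∣ padicValInt 2 W.Δ →
  ∀ N₀ : ℕ, EvenLevel N₀ → (3 ∣ N₀ → (3 : ℤ) ∣ W.Δ) → W.IsResiduallyModularOfLevel 3 N₀ →
    ∃ N : ℕ, EvenLevel N ∧ BadDvd W N ∧
      (∀ q : ℕ, q.Prime → q ∣ N → q ∣ N₀ ∨ (q : ℤ) ∣ W.Δ) ∧ W.IsModularModelOfLevel N

/-- The switch (5-torsion) changing the valuation of the discriminant at `2`. -/
def Switch2 : Prop := ∀ W : WeierstrassCurve ℤ, W.Δ ≠ 0 → W.IsSemistableModel → (2 : ℤ) ∣ W.Δ →
  3 ∣ padicValInt 2 W.Δ → ∀ B : ℕ, B ≠ 0 →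
    ∃ W' : WeierstrassCurve ℤ, W'.Δ ≠ 0 ∧ (2 : ℤ) ∣ W'.Δ ∧ (¬ 3 ∣ padicValInt 2 W'.Δ) ∧
      (∀ q : ℕ, q.Prime → q ∣ B → (q : ℤ) ∣ W'.Δ → (q : ℤ) ∣ W.Δ) ∧ W'.IsSemistableModel ∧
      W'.ModRepIsIrreducible 3 ∧
      ∀ ℓ : ℕ, ℓ.Prime → W.IsGoodPrimeFor ℓ → W'.IsGoodPrimeFor ℓ → ℓ ≠ 5 →
        (5 : ℤ) ∣ (W'.apOfModel ℓ - W.apOfModel ℓ)

/-- Level lowering at `p` itself, for Frey curves. -/
def LoweringAtPFrey : Prop := ∀ P : FreyPackage, 17 ≤ P.p →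
  P.freyCurveInt.ModRepIsIrreducible P.p → ∀ M : ℕ, EvenLevel M → P.p ∣ M →
    (P.p : ℤ) ∣ P.freyCurveInt.Δ → P.freyCurveInt.IsResiduallyModularOfLevel P.p M →
      P.freyCurveInt.IsResiduallyModularOfLevel P.p (M / P.p)

/-- Level lowering at the prime `p ≥ 17` itself (`W` multiplicative at `p`). -/
def LoweringAtP : Prop := ∀ (p : ℕ), p.Prime → 17 ≤ p → ∀ W : WeierstrassCurve ℤ, SS2 W →
  W.ModRepIsIrreducible p → ∀ M : ℕ, EvenLevel M → p ∣ M → (p : ℤ) ∣ W.Δ →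
    (∀ q : ℕ, q.Prime → q ≠ 2 → p ∣ padicValInt q W.Δ) → ¬ p ∣ padicValInt 2 W.Δ →
    W.IsResiduallyModularOfLevel p M →
      W.IsResiduallyModularOfLevel p (M / p)

/-- Level lowering at `q ≠ p`, `p ≥ 17`, for even squarefree levels prime to `p`. -/
def Lowering : Prop := ∀ (p : ℕ), p.Prime → 17 ≤ p → ∀ W : WeierstrassCurve ℤ, SS2 W →
  W.ModRepIsIrreducible p → ∀ M q : ℕ, EvenLevel M → ¬ p ∣ M → q.Prime → q ≠ 2 → q ≠ p → q ∣ M →
    (∀ q' : ℕ, q'.Prime → q' ≠ 2 → p ∣ padicValInt q' W.Δ) → ¬ p ∣ padicValInt 2 W.Δ →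
    W.IsResiduallyModularOfLevel p M → W.IsResiduallyModularOfLevel p (M / q)

/-- `p` is not a unit in the ring of algebraic integers. -/
lemma exists_maximal (p : ℕ) (hp : p.Prime) :
    ∃ 𝔪 : Ideal (integralClosure ℤ ℂ), 𝔪.IsMaximal ∧ (p : integralClosure ℤ ℂ) ∈ 𝔪 := by
  have hne : Ideal.span {(p : integralClosure ℤ ℂ)} ≠ ⊤ := by
    intro h
    rw [Ideal.span_singleton_eq_top] at h
    obtain ⟨u, hu⟩ := h.exists_right_inv
    have h1 : (p : ℂ) * (u : ℂ) = 1 := by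
      have := congrArg (Subtype.val) hu
      simpa using this
    have hint : IsIntegral ℤ (u : ℂ) := u.2
    have hp0 : (p : ℂ) ≠ 0 := by exact_mod_cast hp.ne_zero
    have hu2 : (u : ℂ) = algebraMap ℚ ℂ ((p : ℚ)⁻¹) := by
      rw [map_inv₀, map_natCast]
      exact eq_inv_of_mul_eq_one_right h1
    rw [hu2] at hint
    have hint2 : IsIntegral ℤ ((p : ℚ)⁻¹) :=
      (isIntegral_algebraMap_iff (algebraMap ℚ ℂ).injective).mp hint
    obtain ⟨n, hn⟩ := IsIntegrallyClosed.isIntegral_iff.mp hint2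
    have hpq : (p : ℚ) ≠ 0 := by exact_mod_cast hp.ne_zero
    have h2 : (n : ℚ) * p = 1 := by
      have : (algebraMap ℤ ℚ n) = (n : ℚ) := rfl
      rw [← this, hn, inv_mul_cancel₀ hpq]
    have h3 : n * (p : ℤ) = 1 := by exact_mod_cast h2
    have h4 : (p : ℤ) ∣ 1 := ⟨n, by rw [mul_comm]; exact h3.symm⟩
    exact (Nat.prime_iff_prime_int.mp hp).not_isUnit (isUnit_of_dvd_one h4)
  obtain ⟨𝔪, h𝔪, hle⟩ := Ideal.exists_le_maximal _ hne
  exact ⟨𝔪, h𝔪, hle (Ideal.mem_span_singleton_self _)⟩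

/-- Transfer of residual modularity through a congruence of traces. -/
lemma residual_of_modular {W W' : WeierstrassCurve ℤ} {p N : ℕ} (hp : p.Prime)
    (hbad : BadDvd W' N) (hmod : W'.IsModularModelOfLevel N)
    (hcong : ∀ ℓ : ℕ, ℓ.Prime → W.IsGoodPrimeFor ℓ → W'.IsGoodPrimeFor ℓ → ℓ ≠ p →
      (p : ℤ) ∣ (W'.apOfModel ℓ - W.apOfModel ℓ)) :
    W.IsResiduallyModularOfLevel p N := by
  obtain ⟨f, hf, hcoef⟩ := hmod
  obtain ⟨𝔪, h𝔪, hp𝔪⟩ := exists_maximal p hp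
  refine ⟨f, 𝔪, hf, h𝔪, hp𝔪, ?_⟩
  intro ℓ hℓ hgood hℓN hℓp
  have hgood' : W'.IsGoodPrimeFor ℓ := fun h => hℓN (hbad ℓ hℓ h)
  refine ⟨((W'.apOfModel ℓ : ℤ) : integralClosure ℤ ℂ), ?_, ?_⟩
  · rw [hcoef ℓ hℓ hgood' hℓN]
    simp
  · obtain ⟨k, hk⟩ := hcong ℓ hℓ hgood hgood' hℓp
    have : ((W'.apOfModel ℓ : ℤ) : integralClosure ℤ ℂ) -
        ((W.apOfModel ℓ : ℤ) : integralClosure ℤ ℂ) = (p : integralClosure ℤ ℂ) * (k : ℤ) := by
      rw [← Int.cast_sub, hk]; push_cast; rfl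
    rw [this]
    exact Ideal.mul_mem_right _ _ hp𝔪

/-- The switch with `3 ∤ v₂(Δ')`. -/
theorem exists_switch (hS : Switch2) (W : WeierstrassCurve ℤ) (hW : SS2 W) (B : ℕ) (hB : B ≠ 0) :
    ∃ W' : WeierstrassCurve ℤ, W'.Δ ≠ 0 ∧ (2 : ℤ) ∣ W'.Δ ∧ (¬ 3 ∣ padicValInt 2 W'.Δ) ∧
      (∀ q : ℕ, q.Prime → q ∣ B → (q : ℤ) ∣ W'.Δ → (q : ℤ) ∣ W.Δ) ∧ W'.IsSemistableModel ∧
      W'.ModRepIsIrreducible 3 ∧
      ∀ ℓ : ℕ, ℓ.Prime → W.IsGoodPrimeFor ℓ → W'.IsGoodPrimeFor ℓ → ℓ ≠ 5 →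
        (5 : ℤ) ∣ (W'.apOfModel ℓ - W.apOfModel ℓ) := by
  by_cases h : 3 ∣ padicValInt 2 W.Δ
  · exact hS W hW.Δ0 hW.ss hW.two h B hB
  · obtain ⟨W', h1, h2, h3, h4, h5, h6, h7⟩ := S52A.switch_even W hW.Δ0 hW.ss B hB
    exact ⟨W', h1, hW.two.trans h2, by rw [h3]; exact h, h4, h5, h6, h7⟩

/-- THEOREM Z + R = T: modularity of the curves with multiplicative reduction at 2, irreducible
modulo `5`. -/
theorem modular_of (hZ : ZThm3) (h3 : Lifting3) (h5 : Lifting 5) (hS : Switch2)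
    (W : WeierstrassCurve ℤ) (hW : SS2 W) (hirr : W.ModRepIsIrreducible 5) (B : ℕ) (hB : B ≠ 0) :
    ∃ N : ℕ, EvenLevel N ∧ BadDvd W N ∧ Ctrl W B N ∧ W.IsModularModelOfLevel N := by
  have key3 : ∀ V : WeierstrassCurve ℤ, SS2 V → V.ModRepIsIrreducible 3 →
      ¬ 3 ∣ padicValInt 2 V.Δ → ∀ C : ℕ, C ≠ 0 →
      ∃ N : ℕ, EvenLevel N ∧ BadDvd V N ∧ Ctrl V C N ∧ V.IsModularModelOfLevel N := by
    intro V hV hirr h32 C hC
    obtain ⟨N₀, hN₀, hctrl, hres⟩ := hZ V hV hirr (3 * C) (mul_ne_zero (by norm_num) hC)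
    obtain ⟨N, hN, hbad, hdiv, hmod⟩ := h3 V hV hirr h32 N₀ hN₀
      (fun h => hctrl 3 Nat.prime_three (dvd_mul_right 3 C) h) hres
    refine ⟨N, hN, hbad, fun q hq hqC hqN => ?_, hmod⟩
    rcases hdiv q hq hqN with h | h
    · exact hctrl q hq (Dvd.dvd.mul_left hqC 3) h
    · exact h
  have hB5 : 5 * B ≠ 0 := mul_ne_zero (by norm_num) hB
  obtain ⟨W', hΔ', htwo, h32, hgood, hss', hirr', hcong⟩ := exists_switch hS W hW (5 * B) hB5
  have hW' : SS2 W' := ⟨hΔ', hss', htwo⟩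
  obtain ⟨N₀, hN₀, hbad₀, hctrl₀, hmod₀⟩ := key3 W' hW' hirr' h32 (5 * B) hB5
  obtain ⟨N, hN, hbad, hdiv, hmod⟩ := h5 W hW hirr N₀ hN₀
    (fun h => hgood 5 Nat.prime_five (dvd_mul_right 5 B)
      (hctrl₀ 5 Nat.prime_five (dvd_mul_right 5 B) h))
    (residual_of_modular Nat.prime_five hbad₀ hmod₀
      (fun ℓ hℓ hg hg' h5' => by exact_mod_cast hcong ℓ hℓ hg hg' h5'))
  refine ⟨N, hN, hbad, fun q hq hqB hqN => ?_, hmod⟩
  rcases hdiv q hq hqN with h | h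
  · exact hgood q hq (Dvd.dvd.mul_left hqB 5) (hctrl₀ q hq (Dvd.dvd.mul_left hqB 5) h)
  · exact h

lemma evenLevel_div {N q : ℕ} (hN : EvenLevel N) (hq : q.Prime) (hq2 : q ≠ 2) (hqN : q ∣ N) :
    EvenLevel (N / q) := by
  refine ⟨hN.1.squarefree_of_dvd (Nat.div_dvd_of_dvd hqN), ?_⟩
  obtain ⟨k, hk⟩ := hqN
  have h2 : 2 ∣ q * k := hk ▸ hN.2
  rcases Nat.prime_two.dvd_mul.mp h2 with h | h
  · exact absurd ((Nat.prime_dvd_prime_iff_eq Nat.prime_two hq).mp h).symm hq2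
  · rw [hk, Nat.mul_div_cancel_left _ hq.pos]; exact h

/-- Descent of the level to `2`, for levels prime to `p`. -/
theorem exists_cuspForm_two (hL : Lowering) (p : ℕ) (hp : p.Prime) (hp17 : 17 ≤ p)
    (W : WeierstrassCurve ℤ) (hW : SS2 W) (hirr : W.ModRepIsIrreducible p)
    (hval : ∀ q : ℕ, q.Prime → q ≠ 2 → p ∣ padicValInt q W.Δ)
    (hval2 : ¬ p ∣ padicValInt 2 W.Δ) (N : ℕ) (hN : EvenLevel N) (hpN : ¬ p ∣ N) (hres : W.IsResiduallyModularOfLevel p N) :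
    ∃ f : CuspForm (CongruenceSubgroup.Gamma0 2) 2, f ≠ 0 := by
  induction N using Nat.strong_induction_on with
  | _ N ih =>
    by_cases hex : ∃ q : ℕ, q.Prime ∧ q ≠ 2 ∧ q ∣ N
    · obtain ⟨q, hq, hq2, hqN⟩ := hex
      have hqp : q ≠ p := fun h => hpN (h ▸ hqN)
      have hres' := hL p hp hp17 W hW hirr N q hN hpN hq hq2 hqp hqN hval hval2 hres
      have hN0 : N ≠ 0 := hN.1.ne_zero
      have hlt : N / q < N := Nat.div_lt_self (Nat.pos_of_ne_zero hN0) hq.one_lt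
      exact ih (N / q) hlt (evenLevel_div hN hq hq2 hqN)
        (fun h => hpN (h.trans (Nat.div_dvd_of_dvd hqN))) hres'
    · push Not at hex
      have hN2 : N = 2 := by
        obtain ⟨k, hk⟩ := hN.2
        have hk1 : k = 1 := by
          by_contra hk1
          obtain ⟨r, hr, hrk⟩ := Nat.exists_prime_and_dvd hk1
          have hr2 : r = 2 := by
            by_contra h
            exact hex r hr h (hk ▸ Dvd.dvd.mul_left hrk 2)
          subst hr2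
          obtain ⟨j, hj⟩ := hrk
          have : 2 * 2 ∣ N := ⟨j, by rw [hk, hj]; ring⟩
          have := hN.1 2 this
          exact absurd (Nat.isUnit_iff.mp this) (by norm_num)
        rw [hk, hk1]
      subst hN2
      obtain ⟨f, 𝔪, hf, -⟩ := hres
      exact ⟨f, hf.ne_zero⟩

/-- FINAL WIRING: no Frey package. -/
theorem noFreyPackage_of (hZ : ZThm3) (h3 : Lifting3) (h5 : Lifting 5) (hS : Switch2)
    (hLp : LoweringAtPFrey) (hL : Lowering)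
    (h09 : ∀ P : FreyPackage,
      Affine.Point.GaloisRepIsIrreducible (K := AlgebraicClosure ℚ) ℚ P.freyCurve P.p)
    (P : FreyPackage) : False := by
  have hW : SS2 P.freyCurveInt := ⟨Δ_ne_zero P, isSemistableModel P, two_dvd_Δ P⟩
  have h17 := KummerFLT.frey_seventeen_le P
  have hp2 : P.p ≠ 2 := by omega
  obtain ⟨N, hN, hbad, hctrl, hmod⟩ := modular_of hZ h3 h5 hS P.freyCurveInt hW (X20.irr5 P)
    P.p P.hp0
  have hres : P.freyCurveInt.IsResiduallyModularOfLevel P.p N :=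
    residual_of_modular P.pp hbad hmod (fun ℓ _ _ _ _ => by simp)
  have hirr : P.freyCurveInt.ModRepIsIrreducible P.p := by
    unfold WeierstrassCurve.ModRepIsIrreducible
    rw [map_eq]
    exact h09 P
  have hval : ∀ q : ℕ, q.Prime → q ≠ 2 → P.p ∣ padicValInt q P.freyCurveInt.Δ :=
    fun q hq hq2 => dvd_padicValInt P hq hq2
  obtain ⟨M, hM, hpM, hresM⟩ : ∃ M : ℕ, EvenLevel M ∧ ¬ P.p ∣ M ∧
      P.freyCurveInt.IsResiduallyModularOfLevel P.p M := by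
    by_cases hpN : P.p ∣ N
    · refine ⟨N / P.p, evenLevel_div hN P.pp hp2 hpN, ?_, ?_⟩
      · intro h
        obtain ⟨k, hk⟩ := h
        have h1 : N = P.p * (N / P.p) := (Nat.mul_div_cancel' hpN).symm
        have h2 : P.p * P.p ∣ N := ⟨k, by rw [mul_assoc, ← hk]; exact h1⟩
        have h3 := hN.1 P.p h2
        exact P.pp.one_lt.ne' (Nat.isUnit_iff.mp h3)
      · exact hLp P h17 hirr N hN hpN (hctrl P.p P.pp dvd_rfl hpN) hres
    · exact ⟨N, hN, hpN, hres⟩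
  obtain ⟨f, hf⟩ := exists_cuspForm_two hL P.p P.pp h17 P.freyCurveInt hW hirr hval
    (not_dvd_padicValInt_two P) M hM hpM hresM
  exact hf (S07.result f)

end Fermat.Agent.Final
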