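import Fermat.Agent.RTM.LowSS
import Fermat.Agent.Final.Wire
import Fermat.Agent.S05

/-!
Level lowering for Frey curves, and the final wiring.
-/

set_option autoImplicit false

namespace Fermat.Agent.Final

open WeierstrassCurve WeierstrassCurve.Affine WeierstrassCurve.Affine.Point
open Fermat.Agent.RTM (AmbOK lowering_ss)

/-- Inertia acts trivially on the `p`-torsion of the Frey curve, away from `2p`. -/
theorem frey_unr (P : FreyPackage) {q : ℕ} (hq : q.Prime) (hq2 : q ≠ 2) (hqp : q ≠ P.p)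
    (E : WeierstrassCurve ℚ) (hE : E = P.freyCurve) :
    ∀ A : ValuationSubring (AlgebraicClosure ℚ), A.LiesOverPrime q →
      ∀ s ∈ A.inertiaSubgroupIn ℚ, ∀ Q : (E⁄(AlgebraicClosure ℚ)).Point,
        P.p • Q = 0 → s • Q = Q := by
  subst hE
  intro A hA s hs Q hQ
  have hQ' : Q ∈ Submodule.torsionBy ℤ (P.freyCurve⁄(AlgebraicClosure ℚ)).Point P.p := by
    rw [Submodule.mem_torsionBy_iff, natCast_zsmul]
    exact hQ
  have h1 := S05.result P hq hq2 hqp A hA s hs ⟨Q, hQ'⟩
  exact congrArg Subtype.val h1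

/-- Level lowering for one curve, away from `p`. -/
def LowerW (p : ℕ) (W : WeierstrassCurve ℤ) : Prop := ∀ M q : ℕ, EvenLevel M → ¬ p ∣ M →
  q.Prime → q ≠ 2 → q ≠ p → q ∣ M → W.IsResiduallyModularOfLevel p M →
    W.IsResiduallyModularOfLevel p (M / q)

/-- **Level lowering for Frey curves.** -/
theorem lowerW_frey (P : FreyPackage) (H : @AmbOK P.p ⟨P.pp⟩)
    (hirr : P.freyCurveInt.ModRepIsIrreducible P.p) : LowerW P.p P.freyCurveInt := by
  have hp : Fact P.p.Prime := ⟨P.pp⟩
  have h17 := KummerFLT.frey_seventeen_le P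
  intro M q hM hpM hq hq2 hqp hqM hres
  exact lowering_ss H (by omega) (Δ_ne_zero P) (isSemistableModel P) (two_dvd_Δ P) hirr
    (Or.inr (Or.inr (not_dvd_padicValInt_two P))) hM.1 hM.2 hpM hq hq2 hqp hqM
    (frey_unr P hq hq2 hqp _ (map_eq P)) hres

/-- Descent of the level to `2`, for levels prime to `p`. -/
theorem exists_cuspForm_twoW {p : ℕ} {W : WeierstrassCurve ℤ} (hL : LowerW p W)
    (N : ℕ) (hN : EvenLevel N) (hpN : ¬ p ∣ N) (hres : W.IsResiduallyModularOfLevel p N) :
    ∃ f : CuspForm (CongruenceSubgroup.Gamma0 2) 2, f ≠ 0 := by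
  induction N using Nat.strong_induction_on with
  | _ N ih =>
    by_cases hex : ∃ q : ℕ, q.Prime ∧ q ≠ 2 ∧ q ∣ N
    · obtain ⟨q, hq, hq2, hqN⟩ := hex
      have hqp : q ≠ p := fun h => hpN (h ▸ hqN)
      have hres' := hL N q hN hpN hq hq2 hqp hqN hres
      have hN0 : N ≠ 0 := hN.1.ne_zero
      have hlt : N / q < N := Nat.div_lt_self (Nat.pos_of_ne_zero hN0) hq.one_lt
      exact ih (N / q) hlt (evenLevel_div hN hq hq2 hqN)
        (fun h => hpN (h.trans (Nat.div_dvd_of_dvd hqN))) hres'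
    · push Not at hex
      have hN2 : N = 2 := by
        obtain ⟨k, hk⟩ := hN.2
        have hk1 : k = 1 := by
          by_contra hk1
          obtain ⟨r, hr, hrk⟩ := Nat.exists_prime_and_dvd hk1
          have hr2 : r = 2 := by
            by_contra h
            exact hex r hr h (hk ▸ Dvd.dvd.mul_left hrk 2)
          subst hr2
          obtain ⟨j, hj⟩ := hrk
          have : 2 * 2 ∣ N := ⟨j, by rw [hk, hj]; ring⟩
          have := hN.1 2 this
          exact absurd (Nat.isUnit_iff.mp this) (by norm_num)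
        rw [hk, hk1]
      subst hN2
      obtain ⟨f, 𝔪, hf, -⟩ := hres
      exact ⟨f, hf.ne_zero⟩

/-- FINAL WIRING: no Frey package. -/
theorem noFreyPackage_fin (hZ : ZThm3) (h3 : Lifting3) (h5 : Lifting 5) (hS : Switch2)
    (hLp : LoweringAtPFrey)
    (hL : ∀ P : FreyPackage, P.freyCurveInt.ModRepIsIrreducible P.p → LowerW P.p P.freyCurveInt)
    (h09 : ∀ P : FreyPackage,
      Affine.Point.GaloisRepIsIrreducible (K := AlgebraicClosure ℚ) ℚ P.freyCurve P.p)
    (P : FreyPackage) : False := by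
  have hW : SS2 P.freyCurveInt := ⟨Δ_ne_zero P, isSemistableModel P, two_dvd_Δ P⟩
  have h17 := KummerFLT.frey_seventeen_le P
  have hp2 : P.p ≠ 2 := by omega
  obtain ⟨N, hN, hbad, hctrl, hmod⟩ := modular_of hZ h3 h5 hS P.freyCurveInt hW (X20.irr5 P)
    P.p P.hp0
  have hres : P.freyCurveInt.IsResiduallyModularOfLevel P.p N :=
    residual_of_modular P.pp hbad hmod (fun ℓ _ _ _ _ => by simp)
  have hirr : P.freyCurveInt.ModRepIsIrreducible P.p := by
    unfold WeierstrassCurve.ModRepIsIrreducible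
    rw [map_eq]
    exact h09 P
  obtain ⟨M, hM, hpM, hresM⟩ : ∃ M : ℕ, EvenLevel M ∧ ¬ P.p ∣ M ∧
      P.freyCurveInt.IsResiduallyModularOfLevel P.p M := by
    by_cases hpN : P.p ∣ N
    · refine ⟨N / P.p, evenLevel_div hN P.pp hp2 hpN, ?_, ?_⟩
      · intro h
        obtain ⟨k, hk⟩ := h
        have h1 : N = P.p * (N / P.p) := (Nat.mul_div_cancel' hpN).symm
        have h2 : P.p * P.p ∣ N := ⟨k, by rw [mul_assoc, ← hk]; exact h1⟩
        have h3 := hN.1 P.p h2
        exact P.pp.one_lt.ne' (Nat.isUnit_iff.mp h3)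
      · exact hLp P h17 hirr N hN hpN (hctrl P.p P.pp dvd_rfl hpN) hres
    · exact ⟨N, hN, hpN, hres⟩
  obtain ⟨f, hf⟩ := exists_cuspForm_twoW (hL P hirr) M hM hpM hresM
  exact hf (S07.result f)

end Fermat.Agent.Final
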