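import Fermat.Agent.Final.ZThmFinal
import Fermat.Agent.SW2.Final
import Fermat.Agent.S09
import Fermat.Agent.Wiring.Top

/-!
# Final wiring: Fermat's Last Theorem from the remaining inputs
-/

set_option autoImplicit false

namespace Fermat.Agent.Final

open WeierstrassCurve

/-- the switch at `5` changing `v₂(Δ)` -/
theorem switch2 : Switch2 := SW2.switch_two

/-- No Frey package, from the remaining inputs. -/
theorem noFreyPackage_of' (h3 : Lifting3) (h5 : Lifting 5)
    (hLp : LoweringAtPFrey) (hL : Lowering) : ∀ _P : FreyPackage, False :=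
  noFreyPackage_of zThm3 h3 h5 switch2 hLp hL S09.result

/-- The Frey curve is modular, from modularity lifting. -/
theorem isModular_of (h3 : Lifting3) (h5 : Lifting 5) (P : FreyPackage) :
    P.freyCurve.IsModular := by
  have hW : SS2 P.freyCurveInt := ⟨Δ_ne_zero P, isSemistableModel P, two_dvd_Δ P⟩
  obtain ⟨N, hN, -, -, hmod⟩ := modular_of zThm3 h3 h5 switch2 P.freyCurveInt hW (X20.irr5 P)
    1 one_ne_zero
  exact ⟨P.freyCurveInt, ⟨1, by rw [map_eq]; exact one_smul _ _⟩, N,
    Nat.pos_of_ne_zero hN.1.ne_zero, hmod⟩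

/-- **Fermat's Last Theorem**, from the remaining inputs. -/
theorem flt_of (h3 : Lifting3) (h5 : Lifting 5)
    (hLp : LoweringAtPFrey) (hL : Lowering)
    (n : ℕ) (hn : 3 ≤ n) (a b c : ℕ) (ha : 0 < a) (hb : 0 < b) (hc : 0 < c) :
    a ^ n + b ^ n ≠ c ^ n :=
  Wiring.Top.fltNat_of_noFreyPackage (noFreyPackage_of' h3 h5 hLp hL) n hn a b c ha hb hc

end Fermat.Agent.Final
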