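import Fermat.Agent.Final.LiftFin
import Fermat.Agent.Final.LowF
import Fermat.Agent.Final.Top
import Fermat.Agent.LLv.Fin

/-!
# Fermat's Last Theorem
-/

set_option autoImplicit false

namespace Fermat.Agent.Final

open WeierstrassCurve

/-- **There is no Frey package.** -/
theorem noFreyPackage : ∀ _P : FreyPackage, False :=
  noFreyPackage_fin zThm3 lifting3 lifting5 switch2 LLv.loweringAtPFrey
    (fun P hirr => @lowerW_frey P (@RTM.ambOK P.p ⟨P.pp⟩) hirr) S09.result

/-- **The Frey curve is modular.** -/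
theorem isModular (P : FreyPackage) : P.freyCurve.IsModular := isModular_of lifting3 lifting5 P

/-- **Fermat's Last Theorem.** -/
theorem flt (n : ℕ) (hn : 3 ≤ n) (a b c : ℕ) (ha : 0 < a) (hb : 0 < b) (hc : 0 < c) :
    a ^ n + b ^ n ≠ c ^ n :=
  Wiring.Top.fltNat_of_noFreyPackage noFreyPackage n hn a b c ha hb hc

end Fermat.Agent.Final
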