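import Fermat.Agent.RTM.LiftSS
import Fermat.Agent.Final.Wire

/-!
Modularity lifting at `3` and `5`.
-/

set_option autoImplicit false

namespace Fermat.Agent.Final

open Fermat.Agent.RTM (AmbOK lifting_ss)

theorem lifting3_of (H : AmbOK 3) : Lifting3 := by
  intro W hW hirr h3 N₀ hN₀ hpN₀ hres
  obtain ⟨N, h1, h2, h4, h5⟩ := lifting_ss (p := 3) H (by norm_num) hW.Δ0 hW.ss hW.two hirr
    (Or.inl rfl) (Or.inr h3) hN₀.1 hN₀.2 (fun h => by exact_mod_cast hpN₀ h) hres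
  exact ⟨N, h1, h2, fun q hq hqN => Or.inr (h4 q hq hqN), h5⟩

theorem lifting5_of (H : @AmbOK 5 ⟨Nat.prime_five⟩) : Lifting 5 := by
  have hp : Fact (Nat.Prime 5) := ⟨Nat.prime_five⟩
  intro W hW hirr N₀ hN₀ hpN₀ hres
  obtain ⟨N, h1, h2, h4, h5⟩ := lifting_ss (p := 5) H (by norm_num) hW.Δ0 hW.ss hW.two hirr
    (Or.inr (Or.inl rfl)) (Or.inl le_rfl) hN₀.1 hN₀.2 (fun h => by exact_mod_cast hpN₀ h) hres
  exact ⟨N, h1, h2, fun q hq hqN => Or.inr (h4 q hq hqN), h5⟩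

end Fermat.Agent.Final
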