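import Fermat.Agent.Final.Lift
import Fermat.Agent.RTM.AtP

/-!
Modularity lifting at `3` and `5`.
-/

set_option autoImplicit false

namespace Fermat.Agent.Final

/-- **Modularity lifting at `3`** -/
theorem lifting3 : Lifting3 := lifting3_of (RTM.ambOK 3)

/-- **Modularity lifting at `5`** -/
theorem lifting5 : Lifting 5 := lifting5_of (@RTM.ambOK 5 ⟨Nat.prime_five⟩)

end Fermat.Agent.Final
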