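import Fermat.Agent.Final.Wire
import Fermat.Agent.S05
import Fermat.Agent.RTM.LowerSS

/-!
# Level lowering for Frey curves at `q ≠ p`, and the final wiring with it
-/

set_option autoImplicit false

namespace Fermat.Agent.Final

open WeierstrassCurve WeierstrassCurve.Affine IsLocalRing

/-- Level lowering at `q ≠ p` for Frey curves, even squarefree levels prime to `p`. -/
def LoweringFrey : Prop := ∀ P : FreyPackage, 17 ≤ P.p →
  P.freyCurveInt.ModRepIsIrreducible P.p → ∀ M q : ℕ, EvenLevel M → ¬ P.p ∣ M → q.Prime → q ≠ 2 →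
    q ≠ P.p → q ∣ M → P.freyCurveInt.IsResiduallyModularOfLevel P.p M →
      P.freyCurveInt.IsResiduallyModularOfLevel P.p (M / q)

theorem loweringFrey_of_lowering (h : Lowering) : LoweringFrey := by
  intro P h17 hirr M q hM hpM hq hq2 hqp hqM hres
  exact h P.p P.pp h17 P.freyCurveInt ⟨Δ_ne_zero P, isSemistableModel P, two_dvd_Δ P⟩ hirr M q hM
    hpM hq hq2 hqp hqM (fun q hq hq2 => dvd_padicValInt P hq hq2) (not_dvd_padicValInt_two P) hres

/-- Descent of the level to `2`, for levels prime to `p`. -/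
theorem exists_cuspForm_two_frey (hL : LoweringFrey) (P : FreyPackage) (h17 : 17 ≤ P.p)
    (hirr : P.freyCurveInt.ModRepIsIrreducible P.p) (N : ℕ) (hN : EvenLevel N) (hpN : ¬ P.p ∣ N)
    (hres : P.freyCurveInt.IsResiduallyModularOfLevel P.p N) :
    ∃ f : CuspForm (CongruenceSubgroup.Gamma0 2) 2, f ≠ 0 := by
  induction N using Nat.strong_induction_on with
  | _ N ih =>
    by_cases hex : ∃ q : ℕ, q.Prime ∧ q ≠ 2 ∧ q ∣ N
    · obtain ⟨q, hq, hq2, hqN⟩ := hex
      have hqp : q ≠ P.p := fun h => hpN (h ▸ hqN)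
      have hres' := hL P h17 hirr N q hN hpN hq hq2 hqp hqN hres
      have hN0 : N ≠ 0 := hN.1.ne_zero
      have hlt : N / q < N := Nat.div_lt_self (Nat.pos_of_ne_zero hN0) hq.one_lt
      exact ih (N / q) hlt (evenLevel_div hN hq hq2 hqN)
        (fun h => hpN (h.trans (Nat.div_dvd_of_dvd hqN))) hres'
    · push Not at hex
      have hN2 : N = 2 := by
        obtain ⟨k, hk⟩ := hN.2
        have hk1 : k = 1 := by
          by_contra hk1
          obtain ⟨r, hr, hrk⟩ := Nat.exists_prime_and_dvd hk1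
          have hr2 : r = 2 := by
            by_contra h
            exact hex r hr h (hk ▸ Dvd.dvd.mul_left hrk 2)
          subst hr2
          obtain ⟨j, hj⟩ := hrk
          have : 2 * 2 ∣ N := ⟨j, by rw [hk, hj]; ring⟩
          have := hN.1 2 this
          exact absurd (Nat.isUnit_iff.mp this) (by norm_num)
        rw [hk, hk1]
      subst hN2
      obtain ⟨f, 𝔪, hf, -⟩ := hres
      exact ⟨f, hf.ne_zero⟩

/-- FINAL WIRING: no Frey package. -/
theorem noFreyPackage_frey (hZ : ZThm3) (h3 : Lifting3) (h5 : Lifting 5) (hS : Switch2)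
    (hLp : LoweringAtPFrey) (hL : LoweringFrey)
    (h09 : ∀ P : FreyPackage,
      Affine.Point.GaloisRepIsIrreducible (K := AlgebraicClosure ℚ) ℚ P.freyCurve P.p)
    (P : FreyPackage) : False := by
  have hW : SS2 P.freyCurveInt := ⟨Δ_ne_zero P, isSemistableModel P, two_dvd_Δ P⟩
  have h17 := KummerFLT.frey_seventeen_le P
  have hp2 : P.p ≠ 2 := by omega
  obtain ⟨N, hN, hbad, hctrl, hmod⟩ := modular_of hZ h3 h5 hS P.freyCurveInt hW (X20.irr5 P)
    P.p P.hp0
  have hres : P.freyCurveInt.IsResiduallyModularOfLevel P.p N :=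
    residual_of_modular P.pp hbad hmod (fun ℓ _ _ _ _ => by simp)
  have hirr : P.freyCurveInt.ModRepIsIrreducible P.p := by
    unfold WeierstrassCurve.ModRepIsIrreducible
    rw [map_eq]
    exact h09 P
  obtain ⟨M, hM, hpM, hresM⟩ : ∃ M : ℕ, EvenLevel M ∧ ¬ P.p ∣ M ∧
      P.freyCurveInt.IsResiduallyModularOfLevel P.p M := by
    by_cases hpN : P.p ∣ N
    · refine ⟨N / P.p, evenLevel_div hN P.pp hp2 hpN, ?_, ?_⟩
      · intro h
        obtain ⟨k, hk⟩ := h
        have h1 : N = P.p * (N / P.p) := (Nat.mul_div_cancel' hpN).symm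
        have h2 : P.p * P.p ∣ N := ⟨k, by rw [mul_assoc, ← hk]; exact h1⟩
        have h3 := hN.1 P.p h2
        exact P.pp.one_lt.ne' (Nat.isUnit_iff.mp h3)
      · exact hLp P h17 hirr N hN hpN (hctrl P.p P.pp dvd_rfl hpN) hres
    · exact ⟨N, hN, hpN, hres⟩
  obtain ⟨f, hf⟩ := exists_cuspForm_two_frey hL P h17 hirr M hM hpM hresM
  exact hf (S07.result f)

section unram

open Fermat.Agent.RTE Fermat.Agent.ERep

/-- The residual representation of a Frey curve is unramified at `q ≠ 2, p`. -/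
theorem modE_frey (P : FreyPackage) [hp : Fact P.p.Prime] {q : ℕ} (hq : q.Prime) (hq2 : q ≠ 2)
    (hqp : q ≠ P.p) [(EW P.freyCurveInt).IsElliptic]
    {A : ValuationSubring (AlgebraicClosure ℚ)} (hA : A.LiesOverPrime q)
    {σ : AlgebraicClosure ℚ ≃ₐ[ℚ] AlgebraicClosure ℚ} (hσ : σ ∈ A.inertiaSubgroupIn ℚ) :
    modE (EW P.freyCurveInt) P.p σ = 1 := by
  rw [modE_eq_one_iff]
  have key : ∀ E : WeierstrassCurve ℚ, E = P.freyCurve →
      ∀ x : (E⁄(AlgebraicClosure ℚ)).Point, P.p • x = 0 → σ • x = x := by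
    rintro E rfl x hx
    have h2 := S05.result P hq hq2 hqp A hA σ hσ ⟨x, by
      rw [Submodule.mem_torsionBy_iff]
      exact_mod_cast hx⟩
    exact congrArg Subtype.val h2
  exact key _ (map_eq P)

end unram

/-- **Level lowering for Frey curves.** -/
theorem loweringFrey : LoweringFrey := by
  intro P h17 hirr M q hM hpM hq hq2 hqp hqM hres
  have hp : Fact P.p.Prime := ⟨P.pp⟩
  have hΔ := Δ_ne_zero P
  have hE : (RTE.EW P.freyCurveInt).IsElliptic := RTE.isElliptic_EW hΔ
  obtain ⟨N, rfl⟩ : ∃ N, M = N * q := ⟨M / q, (Nat.div_mul_cancel hqM).symm⟩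
  have h1 := evenLevel_div hM hq hq2 hqM
  rw [Nat.mul_div_cancel _ hq.pos] at h1 ⊢
  exact RTM.Amb.lowering_ss (W := P.freyCurveInt) (l := ⟨q, hq⟩) (by omega) hΔ (isSemistableModel P)
    (two_dvd_Δ P) hirr (Or.inr (Or.inr (not_dvd_padicValInt_two P))) hqp hq2 hM.1 h1.2 hpM
    (fun σ hσ => modE_frey P hq hq2 hqp (TWP.Pl_lies ⟨q, hq⟩) hσ) hres

end Fermat.Agent.Final
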