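import Fermat.Agent.Final.Wire
import Fermat.Agent.ZThm.EWire
import Fermat.Agent.ZCurve.Main

/-!
# Theorem Z: residual modularity at `3` from the main statement
-/

set_option autoImplicit false

namespace Fermat.Agent.Final

open WeierstrassCurve

/-- **Theorem Z** from its main statement. -/
theorem zthm3_of (h : ZThm.MainZ) : ZThm3 := by
  intro W hW _ B hB
  obtain ⟨W₁, hss, hΔ, h2, ⟨p₀, hp₀, hp₀o, hp₀Δ⟩, hodd, hnr, hord, hctrl, hcong⟩ :=
    ZCurve.exists_aux_curve W hW.ss hW.Δ0 hW.two B hB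
  set E : WeierstrassCurve ℚ := W₁.map (Int.castRingHom ℚ) with hE
  have hEΔ : E.Δ = ((W₁.Δ : ℤ) : ℚ) := by
    rw [hE, WeierstrassCurve.map_Δ]; rfl
  have hEll : E.IsElliptic := ⟨by
    rw [hEΔ, isUnit_iff_ne_zero]
    exact_mod_cast hΔ.ne⟩
  have hWE : W₁.IsIntegralModelOf E := ⟨1, by rw [hE]; exact one_smul _ _⟩
  have h0 : W₁.Δ.natAbs ≠ 0 := Int.natAbs_ne_zero.mpr hΔ.ne
  set N : ℕ := ∏ p ∈ W₁.Δ.natAbs.primeFactors, p with hN
  have hNsq : Squarefree N := by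
    rw [hN]
    refine Finset.squarefree_prod_of_pairwise_isCoprime ?_ ?_
    · intro p hp q hq hpq
      rw [Function.onFun, ← Nat.coprime_iff_isRelPrime]
      exact (Nat.coprime_primes (Nat.prime_of_mem_primeFactors hp)
        (Nat.prime_of_mem_primeFactors hq)).2 hpq
    · intro p hp
      exact (Nat.prime_of_mem_primeFactors hp).squarefree
  have hdvd : ∀ l : ℕ, l.Prime → (l ∣ N ↔ (l : ℤ) ∣ W₁.Δ) := by
    intro l hl
    rw [hN, hl.prime.dvd_finsetProd_iff, Int.natCast_dvd]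
    constructor
    · rintro ⟨p, hp, hlp⟩
      rw [(Nat.prime_dvd_prime_iff_eq hl (Nat.prime_of_mem_primeFactors hp)).1 hlp]
      exact Nat.dvd_of_mem_primeFactors hp
    · intro hl'
      exact ⟨l, Nat.mem_primeFactors.2 ⟨hl, hl', h0⟩, dvd_rfl⟩
  have hmod := h E W₁ hWE hss hΔ h2 hodd hnr ⟨p₀, hp₀, by
    rintro rfl
    exact absurd hp₀o (by decide), hp₀Δ⟩ hord N hNsq hdvd
  refine ⟨N, ⟨hNsq, (hdvd 2 Nat.prime_two).2 (by exact_mod_cast h2)⟩,
    fun q hq hqB hqN => hctrl q hq hqB ((hdvd q hq).1 hqN), ?_⟩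
  refine residual_of_modular Nat.prime_three (fun l hl hlΔ => (hdvd l hl).2 hlΔ) hmod ?_
  intro l hl hg hg' hl3
  have := hcong l hl hl3 hg hg'
  rw [← dvd_neg, neg_sub] at this
  exact_mod_cast this

end Fermat.Agent.Final
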