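import Fermat.Agent.ZThm.MainZ
import Fermat.Agent.ZThm.Point
import Fermat.Agent.Final.ZWire

/-!
# Theorem Z: residual modularity at `3`
-/

set_option autoImplicit false

namespace Fermat.Agent.Final

/-- The statement `MainZ` holds. -/
theorem mainZ : ZThm.MainZ :=
  ZThm.mainZ_of (fun {_ _} _ {_ _ _} hE hB hsq hNM Q hMQ hQM {_} hQ hsel {_} hV {_} ht {_} hΛ b hb =>
    ZThm.exists_point hE hB hsq hNM Q hMQ hQM hQ hsel hV ht hΛ b hb)

/-- **Theorem Z**: every semistable curve with even conductor which is irreducible modulo `3` is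
residually modular at `3`. -/
theorem zThm3 : ZThm3 := zthm3_of mainZ

end Fermat.Agent.Final
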